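import Fermat.Agent.H94.ORD.JacInterfaces
import Fermat.Agent.H47.FF.RedKernel

/-!
# P-ORD row 1146 (ORD-GB-N5, N-KERNEL) (helper83)

`redKernelN : Fermat.Agent.H94.ORD.RedKernelN` (unconditional), the nodal twin of
`Fermat.Agent.H47.FF.redKernel`: on the two-component special fibre, a GLUED pair `(x, y)` with
poles at most `(∑ nn a) (Q_∞ + Q_0)` which vanishes at all `Qs i` and at all the extra zeros of an
auxiliary family is a constant multiple of `(∏ fo a, ∏ fz a)`.

Proof.  `q_∞ = x / ∏ fo a ∈ L(Ō_∞)` and `q_0 = y / ∏ fz a ∈ L(Ō_0)` (component by component, as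
in `Fermat.Agent.H47.FF.redKernel_core`); the pairs `(x, y)` and `(∏ fo a, ∏ fz a)` are glued,
the second one with a nonzero value at every node.  (NS1): `q_0 = c` is constant, and the gluing
shows that `q_∞ - c ∈ L(Ō_∞)` vanishes at every node branch; (NS2): `q_∞ = c`.
-/

set_option autoImplicit false
set_option linter.unusedSectionVars false
set_option linter.style.haveILetI false

noncomputable section

open AlgebraicCurve ModularCurve

namespace Fermat.Agent.H83.ORD

open Fermat.Agent.H18.ORD Fermat.Agent.H72.FF Fermat.Agent.H92.ORD Fermat.Agent.H94.FF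
  Fermat.Agent.H94.ORD

/-! ### one function field -/

section OneField

variable {K F : Type*} [Field K] [Field F] [Algebra K F]

/-- the maximal ideal of a valuation subring is closed under addition -/
theorem rk_nonunits_add (V : ValuationSubring F) {a b : F} (ha : a ∈ V.nonunits)
    (hb : b ∈ V.nonunits) : a + b ∈ V.nonunits := by
  rw [ValuationSubring.mem_nonunits_iff] at ha hb ⊢
  exact lt_of_le_of_lt (Valuation.map_add _ _ _) (max_lt ha hb)

/-- the maximal ideal of a valuation subring is closed under negation -/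
theorem rk_nonunits_neg (V : ValuationSubring F) {a : F} (ha : a ∈ V.nonunits) :
    -a ∈ V.nonunits := by
  rw [ValuationSubring.mem_nonunits_iff] at ha ⊢
  rwa [Valuation.map_neg]

/-- the maximal ideal of a valuation subring is closed under subtraction -/
theorem rk_nonunits_sub (V : ValuationSubring F) {a b : F} (ha : a ∈ V.nonunits)
    (hb : b ∈ V.nonunits) : a - b ∈ V.nonunits := by
  rw [sub_eq_add_neg]
  exact rk_nonunits_add V ha (rk_nonunits_neg V hb)

/-- the maximal ideal of a valuation subring is an ideal -/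
theorem rk_mul_mem_nonunits (V : ValuationSubring F) {a b : F} (ha : a ∈ V)
    (hb : b ∈ V.nonunits) : a * b ∈ V.nonunits := by
  rw [ValuationSubring.mem_nonunits_iff] at hb ⊢
  rw [map_mul]
  have h1 : V.valuation a ≤ 1 := (V.valuation_le_one_iff a).mpr ha
  exact lt_of_le_of_lt (mul_le_of_le_one_left' h1) hb

/-- `x ≡ κ` modulo the maximal ideal of a place implies that `x` is integral at the place -/
theorem rk_mem_of_cong (v : Place K F) {x : F} {κ : K}
    (h : x - algebraMap K F κ ∈ v.toValuationSubring.nonunits) : x ∈ v.toValuationSubring := by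
  have h1 : x - algebraMap K F κ ∈ v.toValuationSubring :=
    v.toValuationSubring.nonunits_subset h
  have h2 : x = (x - algebraMap K F κ) + algebraMap K F κ := by ring
  rw [h2]
  exact add_mem h1 (v.algebraMap_mem' κ)

/-- congruences modulo the maximal ideal of a place multiply -/
theorem rk_cong_mul (v : Place K F) {x x' : F} {κ κ' : K}
    (h : x - algebraMap K F κ ∈ v.toValuationSubring.nonunits)
    (h' : x' - algebraMap K F κ' ∈ v.toValuationSubring.nonunits) :
    x * x' - algebraMap K F (κ * κ') ∈ v.toValuationSubring.nonunits := by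
  have h1 : x * x' - algebraMap K F (κ * κ') =
      x * (x' - algebraMap K F κ') + algebraMap K F κ' * (x - algebraMap K F κ) := by
    rw [map_mul]
    ring
  rw [h1]
  exact rk_nonunits_add _ (rk_mul_mem_nonunits _ (rk_mem_of_cong v h) h')
    (rk_mul_mem_nonunits _ (v.algebraMap_mem' κ') h)

/-- constants lie in `L(B)` for an effective divisor `B` -/
theorem rk_const_mem_rr (B : Divisor K F) (hB : ∀ v, 0 ≤ B v) (c : K) :
    algebraMap K F c ∈ riemannRochSpace B := by
  rw [mem_riemannRochSpace_iff]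
  intro v
  right
  rw [Fermat.Agent.H23.ord_algebraMap]
  have := hB v
  omega

/-- **The quotient lemma.**  If `h ∈ L(n Qinf)`, `P` has a pole of order `n` at `Qinf` and, away
from `Qinf`, either `ord_v P ≤ B v`, or `ord_v P ≤ B v + 1` and `h` vanishes at `v`, then
`h / P ∈ L(B)`. -/
theorem rk_quot_mem_rr (Qinf : Place K F) (n : ℕ) (B : Divisor K F) (P h : F) (hP : P ≠ 0)
    (hh : h ∈ riemannRochSpace (Finsupp.single Qinf (n : ℤ)))
    (hinf : Qinf.ord P = -(n : ℤ)) (hBinf : 0 ≤ B Qinf)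
    (hv : ∀ v, v ≠ Qinf → v.ord P ≤ B v ∨ (v.ord P ≤ B v + 1 ∧ (h = 0 ∨ 1 ≤ v.ord h))) :
    h / P ∈ riemannRochSpace B := by
  classical
  rcases eq_or_ne h 0 with rfl | hh0
  · rw [zero_div]
    exact Submodule.zero_mem _
  rw [mem_riemannRochSpace_iff] at hh ⊢
  intro v
  right
  rw [Fermat.Agent.H47.FF.ord_div_of_ne_zero v hh0 hP]
  by_cases hv1 : v = Qinf
  · subst hv1
    have h1 := (hh v).resolve_left hh0
    rw [Finsupp.single_eq_same] at h1
    omega
  · have h1 := (hh v).resolve_left hh0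
    rw [Finsupp.single_apply, if_neg (Ne.symm hv1), neg_zero] at h1
    rcases hv v hv1 with h2 | ⟨h2, h3⟩
    · omega
    · have h4 := h3.resolve_left hh0
      omega

/-- **The node lemma.**  Let `x ≡ κ`, `P ≡ l` at the place `v` with `ord_v P = 0`, and let `c` be
a constant with `c * l = κ`.  Then `x / P - c` vanishes at `v`. -/
theorem rk_quot_sub_const (v : Place K F) {x P : F} {κ l c : K} (hP : P ≠ 0)
    (hord : v.ord P = 0)
    (hx : x - algebraMap K F κ ∈ v.toValuationSubring.nonunits)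
    (hPl : P - algebraMap K F l ∈ v.toValuationSubring.nonunits) (hc : c * l = κ) :
    x / P - algebraMap K F c = 0 ∨ 1 ≤ v.ord (x / P - algebraMap K F c) := by
  -- the numerator lies in the maximal ideal
  have h1 : x - algebraMap K F c * P ∈ v.toValuationSubring.nonunits := by
    have h2 : x - algebraMap K F c * P =
        (x - algebraMap K F κ) - algebraMap K F c * (P - algebraMap K F l) := by
      rw [← hc, map_mul]
      ring
    rw [h2]
    exact rk_nonunits_sub _ hx (rk_mul_mem_nonunits _ (v.algebraMap_mem' c) hPl)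
  have h3 : x / P - algebraMap K F c = (x - algebraMap K F c * P) / P := by
    field_simp
  rcases (nb_mem_nonunits_iff v _).mp h1 with h4 | h4
  · left
    rw [h3, h4, zero_div]
  · rcases eq_or_ne (x - algebraMap K F c * P) 0 with h5 | h5
    · left
      rw [h3, h5, zero_div]
    · right
      rw [h3, Fermat.Agent.H47.FF.ord_div_of_ne_zero v h5 hP, hord, sub_zero]
      exact h4

end OneField

/-! ### the two-component special fibre -/

section Nodal

variable {N : ℕ} {A : ValuationSubring Qb} {Foo F0 : Type} [Field Foo] [Field F0]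
  [Algebra (kRes A) Foo] [Algebra (kRes A) F0] {ι : Type}

/-- glued pairs multiply -/
theorem rk_isGlued_mul {G : NodalData N A Foo F0 ι} {x x' : Foo} {y y' : F0}
    (h : IsGlued G x y) (h' : IsGlued G x' y') : IsGlued G (x * x') (y * y') := by
  intro ν
  obtain ⟨κ, h1, h2⟩ := h ν
  obtain ⟨κ', h1', h2'⟩ := h' ν
  exact ⟨κ * κ', rk_cong_mul _ h1 h1', rk_cong_mul _ h2 h2'⟩

/-- the pair `(1, 1)` is glued -/
theorem rk_isGlued_one (G : NodalData N A Foo F0 ι) : IsGlued G (1 : Foo) (1 : F0) := by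
  intro ν
  refine ⟨1, ?_, ?_⟩
  · rw [map_one, sub_self, ValuationSubring.mem_nonunits_iff, map_zero]
    exact zero_lt_one
  · rw [map_one, sub_self, ValuationSubring.mem_nonunits_iff, map_zero]
    exact zero_lt_one

/-- finite products of glued pairs are glued -/
theorem rk_isGlued_prod {G : NodalData N A Foo F0 ι} {α : Type*} (s : Finset α) (fo : α → Foo)
    (fz : α → F0) (h : ∀ a ∈ s, IsGlued G (fo a) (fz a)) :
    IsGlued G (∏ a ∈ s, fo a) (∏ a ∈ s, fz a) := by
  classical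
  induction s using Finset.induction_on with
  | empty =>
    rw [Finset.prod_empty, Finset.prod_empty]
    exact rk_isGlued_one G
  | insert a s ha ih =>
    rw [Finset.prod_insert ha, Finset.prod_insert ha]
    exact rk_isGlued_mul (h a (Finset.mem_insert_self a s))
      (ih fun b hb => h b (Finset.mem_insert_of_mem hb))

variable {G : NodalData N A Foo F0 ι} {g : ℕ} {Qs : Fin g → NP A Foo F0 ι}
  {Qoo : Place (kRes A) Foo} {Q0 : Place (kRes A) F0} {nn : Fin g ⊕ Fin g → ℕ}
  {fo : Fin g ⊕ Fin g → Foo} {fz : Fin g ⊕ Fin g → F0}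
  {Zx : Fin g ⊕ Fin g → Finset (NP A Foo F0 ι)}

/-- the product of the auxiliary family has total order `2` at `Qs i` -/
theorem rk_sum_main (hQs : Function.Injective Qs) (hsm : ∀ i, IsSm G (Qs i))
    (hAux : IsAuxFamilyN G Qs Qoo Q0 nn fo fz Zx) (i : Fin g) :
    ∑ a, ordPair (fo a) (fz a) (Qs i) = 2 := by
  classical
  have hval1 : ∀ a : Fin g ⊕ Fin g, jproj a = i → ordPair (fo a) (fz a) (Qs i) = 1 := by
    intro a hai
    have := hAux.zero_main a
    rwa [hai] at this
  have hval0 : ∀ a : Fin g ⊕ Fin g, jproj a ≠ i → ordPair (fo a) (fz a) (Qs i) = 0 :=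
    fun a hai => hAux.zero_else a (Qs i) (hsm i) (hAux.qinf_ne i).1 (hAux.qinf_ne i).2
      (fun hq => hai (hQs hq).symm) (hAux.qs_notMem a i)
  have hsl : ∑ j : Fin g, ordPair (fo (Sum.inl j)) (fz (Sum.inl j)) (Qs i) = 1 := by
    rw [Finset.sum_eq_single i, hval1 (Sum.inl i) rfl]
    · intro j _ hji
      exact hval0 (Sum.inl j) hji
    · intro hi
      exact absurd (Finset.mem_univ i) hi
  have hsr : ∑ j : Fin g, ordPair (fo (Sum.inr j)) (fz (Sum.inr j)) (Qs i) = 1 := by
    rw [Finset.sum_eq_single i, hval1 (Sum.inr i) rfl]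
    · intro j _ hji
      exact hval0 (Sum.inr j) hji
    · intro hi
      exact absurd (Finset.mem_univ i) hi
  rw [Fintype.sum_sum_type, hsl, hsr]
  norm_num

/-- the product of the auxiliary family has total order `1` at an extra zero -/
theorem rk_sum_extra (hAux : IsAuxFamilyN G Qs Qoo Q0 nn fo fz Zx) (a : Fin g ⊕ Fin g)
    (v : NP A Foo F0 ι) (hv : v ∈ Zx a) : ∑ b, ordPair (fo b) (fz b) v = 1 := by
  classical
  rw [Finset.sum_eq_single a, hAux.zero_extra a v hv]
  · intro b _ hba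
    refine hAux.zero_else b v (hAux.sm_extra a v hv) ?_ ?_ ?_ ?_
    · intro h
      exact (hAux.qinf_notMem a).1 (h ▸ hv)
    · intro h
      exact (hAux.qinf_notMem a).2 (h ▸ hv)
    · intro h
      exact hAux.qs_notMem a (jproj b) (h ▸ hv)
    · intro hb
      exact (Finset.disjoint_left.mp (hAux.disj a b (Ne.symm hba)) hv) hb
  · intro ha'
    exact absurd (Finset.mem_univ a) ha'

/-- the product of the auxiliary family has total order `0` at the other smooth points -/
theorem rk_sum_else (hAux : IsAuxFamilyN G Qs Qoo Q0 nn fo fz Zx) (v : NP A Foo F0 ι)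
    (hsm : IsSm G v) (h1 : v ≠ NPt.oo Qoo) (h2 : v ≠ NPt.zero Q0) (h3 : ∀ i, Qs i ≠ v)
    (h4 : ∀ a, v ∉ Zx a) : ∑ b, ordPair (fo b) (fz b) v = 0 :=
  Finset.sum_eq_zero fun b _ => hAux.zero_else b v hsm h1 h2 (fun h => h3 _ h.symm) (h4 b)

/-- the three cases together: at a smooth point `v` different from `Q_∞`, `Q_0`, the total
order `s` of the product satisfies `s ≤ β`, or `s ≤ β + 1` and the pair `(x, y)` vanishes at
`v`, where `β = 1` if `v` is one of the `Qs i` and `β = 0` otherwise. -/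
theorem rk_sum_cases (hQs : Function.Injective Qs) (hsm : ∀ i, IsSm G (Qs i))
    (hAux : IsAuxFamilyN G Qs Qoo Q0 nn fo fz Zx) {x : Foo} {y : F0}
    (hQ : ∀ i, VanishAt x y (Qs i)) (hZ : ∀ a, ∀ v ∈ Zx a, VanishAt x y v)
    (v : NP A Foo F0 ι) (hv : IsSm G v) (h1 : v ≠ NPt.oo Qoo) (h2 : v ≠ NPt.zero Q0) (β : ℤ)
    (hβ1 : ∀ i, Qs i = v → β = 1) (hβ0 : (∀ i, Qs i ≠ v) → β = 0) :
    ∑ b, ordPair (fo b) (fz b) v ≤ β ∨
      (∑ b, ordPair (fo b) (fz b) v ≤ β + 1 ∧ VanishAt x y v) := by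
  classical
  by_cases h3 : ∃ i, Qs i = v
  · obtain ⟨i, rfl⟩ := h3
    right
    rw [rk_sum_main hQs hsm hAux i, hβ1 i rfl]
    exact ⟨by norm_num, hQ i⟩
  have h3' : ∀ i, Qs i ≠ v := fun i hi => h3 ⟨i, hi⟩
  rw [hβ0 h3']
  by_cases h4 : ∃ a, v ∈ Zx a
  · obtain ⟨a, ha⟩ := h4
    right
    rw [rk_sum_extra hAux a v ha]
    exact ⟨by norm_num, hZ a v ha⟩
  · left
    rw [rk_sum_else hAux v hv h1 h2 h3' fun a ha => h4 ⟨a, ha⟩]

/-- `x / ∏ fo a ∈ L(Ō_∞)` -/
theorem rk_quot_oo (hQs : Function.Injective Qs) (hsm : ∀ i, IsSm G (Qs i))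
    {Boo : Divisor (kRes A) Foo} (hnn : ∀ Q, 0 ≤ Boo Q)
    (hB1 : ∀ i Q, Qs i = NPt.oo Q → Boo Q = 1) (hB0 : ∀ Q, (∀ i, Qs i ≠ NPt.oo Q) → Boo Q = 0)
    (hAux : IsAuxFamilyN G Qs Qoo Q0 nn fo fz Zx) {x : Foo} {y : F0}
    (hx : x ∈ riemannRochSpace (Finsupp.single Qoo (((∑ a, nn a : ℕ)) : ℤ)))
    (hQ : ∀ i, VanishAt x y (Qs i)) (hZ : ∀ a, ∀ v ∈ Zx a, VanishAt x y v) :
    x / ∏ a, fo a ∈ riemannRochSpace Boo := by
  classical
  have hP0 : ∏ a, fo a ≠ 0 := Finset.prod_ne_zero_iff.mpr fun a _ => (hAux.ne_zero a).1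
  have hord : ∀ v : Place (kRes A) Foo, v.ord (∏ a, fo a) = ∑ a, v.ord (fo a) := fun v =>
    Fermat.Agent.H47.FF.ord_finset_prod v Finset.univ fo fun a _ => (hAux.ne_zero a).1
  refine rk_quot_mem_rr Qoo (∑ a, nn a) Boo _ x hP0 hx ?_ (hnn Qoo) ?_
  · rw [hord, Finset.sum_congr rfl fun a _ => (hAux.pole a).1, Finset.sum_neg_distrib]
    push_cast
    rfl
  · intro v hv
    by_cases hnode : v ∈ Set.range G.nOo
    · obtain ⟨ν, rfl⟩ := hnode
      left
      rw [hord, Finset.sum_eq_zero fun a _ => (hAux.node_unit a ν).1]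
      exact hnn _
    · have h := rk_sum_cases hQs hsm hAux hQ hZ (NPt.oo v) hnode
        (fun h => hv (NPt.oo.inj h)) (fun h => by cases h) (Boo v)
        (fun i hi => hB1 i v hi) (fun hi => hB0 v hi)
      rw [hord]
      rcases h with h | ⟨h, h'⟩
      · exact Or.inl h
      · exact Or.inr ⟨h, (Fermat.Agent.H47.FF.hasVal_zero_iff_vanish _ _).mp h'⟩

/-- `y / ∏ fz a ∈ L(Ō_0)` -/
theorem rk_quot_zero (hQs : Function.Injective Qs) (hsm : ∀ i, IsSm G (Qs i))
    {B0 : Divisor (kRes A) F0} (hnn : ∀ Q, 0 ≤ B0 Q)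
    (hB1 : ∀ i Q, Qs i = NPt.zero Q → B0 Q = 1)
    (hB0 : ∀ Q, (∀ i, Qs i ≠ NPt.zero Q) → B0 Q = 0)
    (hAux : IsAuxFamilyN G Qs Qoo Q0 nn fo fz Zx) {x : Foo} {y : F0}
    (hy : y ∈ riemannRochSpace (Finsupp.single Q0 (((∑ a, nn a : ℕ)) : ℤ)))
    (hQ : ∀ i, VanishAt x y (Qs i)) (hZ : ∀ a, ∀ v ∈ Zx a, VanishAt x y v) :
    y / ∏ a, fz a ∈ riemannRochSpace B0 := by
  classical
  have hP0 : ∏ a, fz a ≠ 0 := Finset.prod_ne_zero_iff.mpr fun a _ => (hAux.ne_zero a).2
  have hord : ∀ v : Place (kRes A) F0, v.ord (∏ a, fz a) = ∑ a, v.ord (fz a) := fun v =>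
    Fermat.Agent.H47.FF.ord_finset_prod v Finset.univ fz fun a _ => (hAux.ne_zero a).2
  refine rk_quot_mem_rr Q0 (∑ a, nn a) B0 _ y hP0 hy ?_ (hnn Q0) ?_
  · rw [hord, Finset.sum_congr rfl fun a _ => (hAux.pole a).2, Finset.sum_neg_distrib]
    push_cast
    rfl
  · intro v hv
    by_cases hnode : v ∈ Set.range G.n0
    · obtain ⟨ν, rfl⟩ := hnode
      left
      rw [hord, Finset.sum_eq_zero fun a _ => (hAux.node_unit a ν).2]
      exact hnn _
    · have h := rk_sum_cases hQs hsm hAux hQ hZ (NPt.zero v) hnode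
        (fun h => by cases h) (fun h => hv (NPt.zero.inj h)) (B0 v)
        (fun i hi => hB1 i v hi) (fun hi => hB0 v hi)
      rw [hord]
      rcases h with h | ⟨h, h'⟩
      · exact Or.inl h
      · exact Or.inr ⟨h, (Fermat.Agent.H47.FF.hasVal_zero_iff_vanish _ _).mp h'⟩

/-- **N-KERNEL** (row 1146, ORD-GB-N5). -/
theorem redKernelN : RedKernelN := by
  intro N A Foo F0 _ _ _ _ ι G gOo gZ _ _ g Qs hQs hsm Boo B0 hB hBoo1 hBoo0 hB01 hB00 Qoo Q0 nn
    fo fz Zx hAux x y hx hy hglue hQ hZ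
  classical
  have hPo0 : ∏ a, fo a ≠ 0 := Finset.prod_ne_zero_iff.mpr fun a _ => (hAux.ne_zero a).1
  have hPz0 : ∏ a, fz a ≠ 0 := Finset.prod_ne_zero_iff.mpr fun a _ => (hAux.ne_zero a).2
  have hqoo : x / ∏ a, fo a ∈ riemannRochSpace Boo :=
    rk_quot_oo hQs hsm hB.nonneg_oo hBoo1 hBoo0 hAux hx hQ hZ
  have hq0 : y / ∏ a, fz a ∈ riemannRochSpace B0 :=
    rk_quot_zero hQs hsm hB.nonneg_zero hB01 hB00 hAux hy hQ hZ
  -- (NS1)
  obtain ⟨c, hc⟩ := hB.ns1 _ hq0
  have hy' : y = algebraMap (kRes A) F0 c * ∏ a, fz a := by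
    rw [← hc, div_mul_cancel₀ _ hPz0]
  refine ⟨c, ?_, hy'⟩
  -- the gluing at the nodes
  have hPglue : IsGlued G (∏ a, fo a) (∏ a, fz a) :=
    rk_isGlued_prod Finset.univ fo fz fun a _ => hAux.glued a
  have hordPo : ∀ ν, (G.nOo ν).ord (∏ a, fo a) = 0 := by
    intro ν
    rw [Fermat.Agent.H47.FF.ord_finset_prod _ Finset.univ fo fun a _ => (hAux.ne_zero a).1]
    exact Finset.sum_eq_zero fun a _ => (hAux.node_unit a ν).1
  have hnode : ∀ ν, x / ∏ a, fo a - algebraMap (kRes A) Foo c = 0 ∨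
      1 ≤ (G.nOo ν).ord (x / ∏ a, fo a - algebraMap (kRes A) Foo c) := by
    intro ν
    obtain ⟨κ, hκ1, hκ2⟩ := hglue ν
    obtain ⟨l, hl1, hl2⟩ := hPglue ν
    have hcl : c * l = κ := by
      have h1 : algebraMap (kRes A) F0 (c * l - κ) ∈
          (G.n0 ν).toValuationSubring.nonunits := by
        have h2 : algebraMap (kRes A) F0 (c * l - κ) =
            (y - algebraMap (kRes A) F0 κ) -
              algebraMap (kRes A) F0 c * (∏ a, fz a - algebraMap (kRes A) F0 l) := by
          rw [hy', map_sub, map_mul]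
          ring
        rw [h2]
        exact rk_nonunits_sub _ hκ2 (rk_mul_mem_nonunits _ ((G.n0 ν).algebraMap_mem' c) hl2)
      exact sub_eq_zero.mp (nb_const_eq_zero_of_mem_nonunits (G.n0 ν) h1)
    exact rk_quot_sub_const (G.nOo ν) hPo0 (hordPo ν) hκ1 hl1 hcl
  -- (NS2)
  have hmem : x / ∏ a, fo a - algebraMap (kRes A) Foo c ∈ riemannRochSpace Boo :=
    Submodule.sub_mem _ hqoo (rk_const_mem_rr Boo hB.nonneg_oo c)
  have h0 : x / ∏ a, fo a = algebraMap (kRes A) Foo c :=
    sub_eq_zero.mp (hB.ns2 _ hmem hnode)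
  rw [← h0, div_mul_cancel₀ _ hPo0]

end Nodal

end Fermat.Agent.H83.ORD

end
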