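import Fermat.Agent.H23.Final3
import Fermat.Agent.H82.CuspDatum
import Fermat.Agent.H19.RH.HurwitzFinal
import Fermat.Agent.H19.RH.FibreSum
import Fermat.Agent.H58.RR.Modular
import Fermat.Agent.H58.RR.ESD

/-!
# P-ORD row 1167 (B1-NODES), step (G1) (helper83): the RIEMANN genus of `X₀(N)` over `ℚ̄`

`genusFF_eq_genusFormula : (genusFF ℚ̄ (modularFunctionFieldBar N) : ℚ) = genusFormula N`.

The frozen statement S24 computes the genus defined through the canonical divisor; here the same
count is made for the Riemann genus `genusFF = dim H¹(0)` (the `g` of every `RiemannPackage`),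
from the landed Riemann-Hurwitz formula for the Riemann genus
(`Fermat.Agent.H19.hurwitzStatement`, equality in the tame case), the fibre decomposition
`Fermat.Agent.H19.rh_finsum_fibres`, and the fibre sums of the S24 blueprint
(`Fermat.Agent.H23.point_package`: `∑_{v ∣ a} (e_v - 1) = n - #orbits`).
-/

set_option autoImplicit false
set_option linter.unusedSectionVars false
set_option linter.style.haveILetI false

noncomputable section

open AlgebraicCurve IntermediateField

namespace Fermat.Agent.H83.ORD

open Fermat.Agent.H23 Fermat.Agent.H27.ESD Fermat.Agent.H19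

section Abstract

variable {K F : Type} [Field K] [Field F] [Algebra K F] [IsAlgClosed K] [CharZero K]

/-- the number of orbits of the identity -/
theorem gf_numOrbits_one (I : Type) [Fintype I] :
    numOrbits (1 : Equiv.Perm I) = Fintype.card I := by
  unfold numOrbits
  rw [← Nat.card_eq_fintype_card]
  refine Nat.card_congr (Equiv.symm ?_)
  refine Equiv.ofBijective (Quotient.mk _) ⟨?_, Quotient.mk_surjective⟩
  intro i j hij
  have := Quotient.exact hij
  obtain ⟨k, hk⟩ := this
  simpa using hk

/-- **Riemann-Hurwitz for the Riemann genus, in orbit form** (twin of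
`Fermat.Agent.H23.RiemannHurwitzStatement`, with `2 g - 2` in place of the degree of the
canonical divisor). -/
theorem gf_hurwitz_orbits (g : ℕ) (pkg : RiemannPackage K F g)
    (x : F) (hx : Transcendental K x) (hfin : FiniteDimensional K⟮x⟯ F)
    (S : Finset K) (L : ∀ a : K, LocalDatum K F (x - algebraMap K F a))
    (Linf : LocalDatum K F x⁻¹)
    (hcard : ∀ a, Fintype.card (L a).I = Module.finrank K⟮x⟯ F)
    (hcardinf : Fintype.card Linf.I = Module.finrank K⟮x⟯ F)
    (hS : ∀ a, a ∉ S → (L a).ε = 1) :
    2 * (g : ℤ) - 2 = -2 * (Module.finrank K⟮x⟯ F : ℤ)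
      + ∑ a ∈ S, ((Module.finrank K⟮x⟯ F : ℤ) - numOrbits (L a).ε)
      + ((Module.finrank K⟮x⟯ F : ℤ) - numOrbits Linf.ε) := by
  classical
  have hspanv := (Fermat.Agent.H12.kaehler K F x hx hfin).2
  have P := fun a : K => point_package Fermat.Agent.H29.fundamentalIdentity
    Fermat.Agent.H85.localCounting Fermat.Agent.H34.differentialOrder hspanv x hfin
    (x - algebraMap K F a) (transcendental_sub_const hx a) (adjoin_sub_const x a) (L a)
    (hcard a)
  have Pinf := point_package Fermat.Agent.H29.fundamentalIdentity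
    Fermat.Agent.H85.localCounting Fermat.Agent.H34.differentialOrder hspanv x hfin x⁻¹
    (transcendental_inv hx) (adjoin_inv x) Linf hcardinf
  have hdeg : ∀ v : Place K F, v.deg = 1 := Pinf.1
  set n : ℤ := (Module.finrank K⟮x⟯ F : ℤ) with hn
  -- the fibres
  have hfib : ∀ c : K, (rhFibre (K := K) x c).Finite := fun c => (P c).2.1
  have hinfset : rhFibreInf K x = {v : Place K F | 0 < v.ord x⁻¹} := by
    ext v
    show v.ord x < 0 ↔ 0 < v.ord x⁻¹
    rw [v.ord_inv]
    omega
  have hinf : (rhFibreInf K x).Finite := by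
    rw [hinfset]
    exact Pinf.2.1
  -- the fibre sums
  have hsumc : ∀ c : K, ∑ᶠ v ∈ rhFibre (K := K) x c, ((ramIdx x v : ℤ) - 1) =
      n - numOrbits (L c).ε := by
    intro c
    rw [← (P c).2.2.2.1]
    refine finsum_mem_congr rfl fun v hv => ?_
    rw [rh_ramIdx_of_ord_sub_pos' v hv]
  have hsuminf : ∑ᶠ v ∈ rhFibreInf K x, ((ramIdx x v : ℤ) - 1) = n - numOrbits Linf.ε := by
    rw [← Pinf.2.2.2.1, hinfset]
    refine finsum_mem_congr rfl fun v hv => ?_
    have hv' : v.ord x < 0 := by
      have h1 : 0 < v.ord x⁻¹ := hv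
      rw [v.ord_inv] at h1
      omega
    rw [rh_ramIdx_of_ord_neg' v hv', v.ord_inv]
  -- unramified outside `S`
  have hC : ∀ (c : K) (v : Place K F), 0 < v.ord (x - algebraMap K F c) → 1 < ramIdx x v →
      c ∈ S := by
    intro c v hv hram
    by_contra hcS
    have hsum := (P c).2.2.2.1
    rw [hS c hcS, gf_numOrbits_one, hcard c, sub_self,
      finsum_mem_eq_finite_toFinset_sum _ (P c).2.1] at hsum
    have hnonneg : ∀ w ∈ (P c).2.1.toFinset, 0 ≤ w.ord (x - algebraMap K F c) - 1 := by
      intro w hw
      have : 0 < w.ord (x - algebraMap K F c) := by simpa using hw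
      omega
    have hzero := (Finset.sum_eq_zero_iff_of_nonneg hnonneg).mp hsum v (by simpa using hv)
    have h1 := rh_ramIdx_of_ord_sub_pos' v hv
    omega
  obtain ⟨-, hdecomp⟩ := rh_finsum_fibres hdeg hx hfib hinf S hC
  -- Riemann-Hurwitz
  haveI := hfin
  have hsep : Algebra.IsSeparable K⟮x⟯ F := inferInstance
  obtain ⟨-, -, heq⟩ := hurwitzStatement K F x hx hfin hsep g pkg
  have htame : ∀ v : Place K F, ((ramIdx x v : ℕ) : K) ≠ 0 := by
    intro v
    have := rh_ramIdx_pos v (hdeg v) hx
    exact Nat.cast_ne_zero.mpr (by omega)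
  have hRH := heq htame
  rw [hdecomp, Finset.sum_congr rfl fun c _ => hsumc c, hsuminf] at hRH
  linarith

end Abstract

/-- the modular data of `X₀(N)` (landed, S24) -/
theorem gf_modularData (N : ℕ) [NeZero N] : ModularDataStatement N :=
  modularData_of_packages
    (analyticStatement_of_cusp N
      (Fermat.Agent.H82.analytic_cusp N Fermat.Agent.H33.merGerm_statement
        (Fermat.Agent.H44.core N)))
    (degreeStatement_holds N) (Fermat.Agent.H85.cosetCombinatorics N)

/-- **The Riemann genus of `X₀(N)` over `ℚ̄` is given by the genus formula.** -/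
theorem genusFF_eq_genusFormula (N : ℕ) [NeZero N] :
    (genusFF (AlgebraicClosure ℚ) ↥(ModularCurve.modularFunctionFieldBar N) : ℚ) =
      ModularCurve.genusFormula N := by
  classical
  obtain ⟨x, hx, hfin, hdeg, a₀, a₁, ha, L, Linf, hL, hLinf, hε, h3, h2, hc⟩ :=
    gf_modularData N
  have pkg := Fermat.Agent.H58.riemannPackage_of_rrHyp
    (Fermat.Agent.H58.rrHyp_modularFunctionFieldBar N)
  have hS : ∀ a, a ∉ ({a₀, a₁} : Finset (AlgebraicClosure ℚ)) → (L a).ε = 1 := by
    intro a haS
    simp only [Finset.mem_insert, Finset.mem_singleton, not_or] at haS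
    exact hε a haS.1 haS.2
  have key := gf_hurwitz_orbits _ pkg x hx hfin {a₀, a₁} L Linf
    (fun a => (hL a).trans hdeg.symm) (hLinf.trans hdeg.symm) hS
  rw [Finset.sum_pair ha, hdeg] at key
  have h3' : (3 : ℚ) * numOrbits (L a₀).ε
      = ModularCurve.dedekindPsi N + 2 * ModularCurve.nuThree N := by exact_mod_cast h3
  have h2' : (2 : ℚ) * numOrbits (L a₁).ε
      = ModularCurve.dedekindPsi N + ModularCurve.nuTwo N := by exact_mod_cast h2
  have hc' : (numOrbits Linf.ε : ℚ) = ModularCurve.cuspCount N := by exact_mod_cast hc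
  have keyQ : (2 : ℚ) * (genusFF (AlgebraicClosure ℚ)
      ↥(ModularCurve.modularFunctionFieldBar N) : ℚ) - 2 =
      -2 * (ModularCurve.dedekindPsi N : ℚ)
        + (((ModularCurve.dedekindPsi N : ℚ) - numOrbits (L a₀).ε)
          + ((ModularCurve.dedekindPsi N : ℚ) - numOrbits (L a₁).ε))
        + ((ModularCurve.dedekindPsi N : ℚ) - numOrbits Linf.ε) := by
    exact_mod_cast key
  unfold ModularCurve.genusFormula
  linarith

end Fermat.Agent.H83.ORD

end
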