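import Fermat.Agent.H57.Gamma0Index
import Fermat.Prelude.Def_ModularCurve_GenusNumerics

/-!
# P-ORD row 1167 (B1-NODES), step (G2) (helper83): the genus formula at the levels `M` and `M p`

For a prime `p ∤ M` and `4 ∣ M`:
`genusFormula (M p) + 1 - 2 genusFormula M = (p - 1) ψ(M) / 12` (the number of supersingular
points of `X₀(M)` in characteristic `p`); in particular `2 genusFormula M < genusFormula (M p) + 1`.
-/

set_option autoImplicit false
set_option linter.style.haveILetI false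
set_option linter.unusedVariables false

namespace Fermat.Agent.H83.ORD

open ModularCurve

/-- no solution of `x² + 1 = 0` modulo a multiple of `4` -/
theorem gn_nuTwo_eq_zero {N : ℕ} (h4 : 4 ∣ N) : nuTwo N = 0 := by
  unfold nuTwo
  haveI : IsEmpty {x : ZMod N // x ^ 2 + 1 = 0} := by
    refine ⟨fun ⟨x, hx⟩ => ?_⟩
    have h := congrArg (ZMod.castHom h4 (ZMod 4)) hx
    rw [map_add, map_pow, map_one, map_zero] at h
    revert h
    generalize ZMod.castHom h4 (ZMod 4) x = y
    revert y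
    decide
  exact Nat.card_of_isEmpty

/-- no solution of `x² + x + 1 = 0` modulo an even number -/
theorem gn_nuThree_eq_zero {N : ℕ} (h2 : 2 ∣ N) : nuThree N = 0 := by
  unfold nuThree
  haveI : IsEmpty {x : ZMod N // x ^ 2 + x + 1 = 0} := by
    refine ⟨fun ⟨x, hx⟩ => ?_⟩
    have h := congrArg (ZMod.castHom h2 (ZMod 2)) hx
    rw [map_add, map_add, map_pow, map_one, map_zero] at h
    revert h
    generalize ZMod.castHom h2 (ZMod 2) x = y
    revert y
    decide
  exact Nat.card_of_isEmpty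

/-- the divisors of `M p`, `p ∤ M` -/
theorem gn_divisors_mul_prime {M p : ℕ} (hM : M ≠ 0) (hp : p.Prime) (hpM : ¬ p ∣ M) :
    (M * p).divisors = M.divisors ∪ M.divisors.image (· * p) := by
  ext d
  simp only [Nat.mem_divisors, Finset.mem_union, Finset.mem_image]
  constructor
  · rintro ⟨h1, -⟩
    by_cases hpd : p ∣ d
    · right
      obtain ⟨e, rfl⟩ := hpd
      have he : e ∣ M := by
        rw [mul_comm M p] at h1
        exact Nat.dvd_of_mul_dvd_mul_left hp.pos h1
      exact ⟨e, ⟨he, hM⟩, mul_comm e p⟩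
    · left
      have hcop : Nat.Coprime d p := ((Nat.Prime.coprime_iff_not_dvd hp).mpr hpd).symm
      exact ⟨hcop.dvd_of_dvd_mul_right h1, hM⟩
  · rintro (⟨h1, -⟩ | ⟨e, ⟨h1, -⟩, rfl⟩)
    · exact ⟨Dvd.dvd.mul_right h1 p, mul_ne_zero hM hp.ne_zero⟩
    · exact ⟨Nat.mul_dvd_mul_right h1 p, mul_ne_zero hM hp.ne_zero⟩

/-- the two parts are disjoint -/
theorem gn_divisors_disjoint {M p : ℕ} (hpM : ¬ p ∣ M) :
    Disjoint M.divisors (M.divisors.image (· * p)) := by
  rw [Finset.disjoint_left]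
  intro d hd hd'
  obtain ⟨e, -, rfl⟩ := Finset.mem_image.mp hd'
  exact hpM ((Dvd.intro_left e rfl).trans (Nat.mem_divisors.mp hd).1)

/-- **the number of cusps doubles** -/
theorem gn_cuspCount_mul_prime {M p : ℕ} (hM : M ≠ 0) (hp : p.Prime) (hpM : ¬ p ∣ M) :
    cuspCount (M * p) = 2 * cuspCount M := by
  unfold cuspCount
  rw [gn_divisors_mul_prime hM hp hpM, Finset.sum_union (gn_divisors_disjoint hpM),
    Finset.sum_image (fun a _ b _ h => Nat.eq_of_mul_eq_mul_right hp.pos h), two_mul]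
  congr 1
  · refine Finset.sum_congr rfl fun d hd => ?_
    have hdM : d ∣ M := (Nat.mem_divisors.mp hd).1
    have hpd : ¬ p ∣ d := fun h => hpM (h.trans hdM)
    have hcop : Nat.Coprime p d := (Nat.Prime.coprime_iff_not_dvd hp).mpr hpd
    rw [Nat.mul_div_right_comm hdM p, Nat.Coprime.gcd_mul_right_cancel_right _ hcop]
  · refine Finset.sum_congr rfl fun e he => ?_
    have heM : e ∣ M := (Nat.mem_divisors.mp he).1
    have hpe : ¬ p ∣ M / e := fun h => hpM (h.trans (Nat.div_dvd_of_dvd heM))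
    have hcop : Nat.Coprime p (M / e) := (Nat.Prime.coprime_iff_not_dvd hp).mpr hpe
    rw [Nat.mul_div_mul_right M e hp.pos, Nat.Coprime.gcd_mul_right_cancel _ hcop]

/-- **The count of the supersingular points.** -/
theorem gn_genusFormula_mul_prime {M p : ℕ} (hM : M ≠ 0) (hp : p.Prime) (hpM : ¬ p ∣ M)
    (h4 : 4 ∣ M) :
    genusFormula (M * p) + 1 - 2 * genusFormula M = ((p : ℚ) - 1) * dedekindPsi M / 12 := by
  have h2 : 2 ∣ M := (by norm_num : 2 ∣ 4).trans h4
  unfold genusFormula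
  rw [gn_nuTwo_eq_zero (h4.mul_right p), gn_nuTwo_eq_zero h4,
    gn_nuThree_eq_zero (h2.mul_right p), gn_nuThree_eq_zero h2,
    gn_cuspCount_mul_prime hM hp hpM,
    Fermat.Agent.H57.dedekindPsi_mul_prime_of_not_dvd hM hp hpM]
  push_cast
  ring

/-- `2 g(X₀(M)) < g(X₀(M p)) + 1` (genus formulas) -/
theorem gn_genusFormula_lt {M p : ℕ} (hM : M ≠ 0) (hp : p.Prime) (hpM : ¬ p ∣ M)
    (h4 : 4 ∣ M) : 2 * genusFormula M < genusFormula (M * p) + 1 := by
  have h := gn_genusFormula_mul_prime hM hp hpM h4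
  have hψ : (0 : ℚ) < dedekindPsi M := by
    have : 0 < dedekindPsi M := by
      unfold dedekindPsi
      refine Finset.sum_pos' (fun _ _ => Nat.zero_le _) ⟨1, ?_, ?_⟩
      · rw [Finset.mem_filter, Nat.mem_divisors]
        exact ⟨⟨one_dvd M, hM⟩, squarefree_one⟩
      · rw [Nat.div_one]
        exact Nat.pos_of_ne_zero hM
    exact_mod_cast this
  have hp1 : (0 : ℚ) < (p : ℚ) - 1 := by
    have : (1 : ℚ) < p := by exact_mod_cast hp.one_lt
    linarith
  have hpos : (0 : ℚ) < ((p : ℚ) - 1) * dedekindPsi M / 12 := by positivity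
  linarith

end Fermat.Agent.H83.ORD
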