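import Fermat.Agent.H84.ORD.NodalSpecFinal
import Fermat.Agent.H20.ORD.NmSoft
import Fermat.Agent.H7.ORD.NmNonCusp
import Fermat.Agent.H95.ORD.LocalW
import Fermat.Agent.H92.ORD.NodalAsm

/-!
# P-ORD row 1167 (B1-NODES) (helper83): the nodal model of `X₀(M p)` has finitely many nodes

`nmFinite : Finite (NmNode M p h.cop A)`, UNCONDITIONAL (no genus input).

Proof.  `G = j - j_p ^ p` (helper20's `nmSoftG`) lies in the chart `B̄(j)`, `red_0 G = 0` and
`ū = red_∞ G = j̄ - j̄^(p²) ≠ 0`.  At a node (centre `𝔪` of `P` on both components) the chart is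
`j` (helper7's `nmNonCusp`), `G ∈ 𝔪` because `𝔮_0 ∩ B̄ ⊆ 𝔪`, hence `ū` vanishes at the branch
`nmNOo ν`.  The branch determines the node (helper84's `NmBase.centre_eq_of_specOo`) and `ū` has
finitely many zeros (`HasPrincipalDivisors`, from helper92's `b1_rrHyp_nmF`).
-/

set_option autoImplicit false
set_option linter.unusedSectionVars false
set_option linter.style.haveILetI false
set_option synthInstance.maxHeartbeats 400000

noncomputable section

open AlgebraicCurve ModularCurve

namespace Fermat.Agent.H83.ORD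

open Fermat.Agent.H72.FF Fermat.Agent.H18.ORD Fermat.Agent.H84.ORD Fermat.Agent.H66
  Fermat.Agent.H20.ORD Fermat.Agent.H92.ORD Fermat.Agent.H95.ORD

section

variable (M p : ℕ) [NeZero M] [NeZero p]

/-- helper20's `j` of level `M` is `nmJ M` -/
theorem nf_softJ_eq : nmSoftJ M = nmJ M := by
  apply Subtype.ext
  show qExpand Qb 1 (jqModC Qb) = coeffEmb Qb (qExpand ℚ 1 jq)
  rw [coeffEmb, coeffMap_qExpand, ← jqModC_rat, coeffMap_jqModC]

/-- `G = j - j_p ^ p` lies in the chart `B̄(j)` -/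
theorem nf_softG_mem_chart (A : ValuationSubring Qb) :
    nmSoftG M p ∈ nmChart (M * p) A (nmJ (M * p)) := by
  have h1 : heckeAlphaBar Qb M p (nmSoftJ M) = nmJ (M * p) := by
    rw [nf_softJ_eq]
    apply Subtype.ext
    rw [coe_heckeAlphaBar]
    rfl
  have h2 : heckeBetaBar Qb M p (nmSoftJ M) =
      Fermat.Agent.H62.SS.ratBar (modularFunctionFieldFull (M * p)) (nmJpq M p) := by
    rw [nf_softJ_eq]
    apply Subtype.ext
    rw [coe_heckeBetaBar]
    show qExpand Qb p (coeffEmb Qb (qExpand ℚ 1 jq)) = coeffEmb Qb (qExpand ℚ p jq)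
    rw [qExpand_one_apply, coeffEmb, coeffMap_qExpand]
  unfold nmSoftG
  rw [h1, h2]
  exact Subring.sub_mem _ (Fermat.Agent.H84.ORD.self_mem_nmChart A _)
    (Subring.pow_mem _ (nmJp_mem_nmChart M p A) p)

/-- **The nodal model of `X₀(M p)` has finitely many nodes** (unconditional). -/
theorem nmFinite (A : ValuationSubring Qb) (h : NmSetup M p A) :
    Finite (NmNode M p h.cop A) := by
  classical
  have hpM : ¬ p ∣ M := fun hd =>
    h.prime.one_lt.ne' (Nat.Coprime.eq_one_of_dvd h.cop.symm hd)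
  have H : NmBase M p A := nmBase_of_soft (nmSoft M p) h
  obtain ⟨-, hrr⟩ := b1_rrHyp_nmF M p h.prime hpM A h.liesOver
  have hprin : HasPrincipalDivisors (kRes A) (NmF (M * p) A) := hrr.principal
  set ubar : NmF (M * p) A := nmRedOo (M * p) A ⟨nmSoftG M p, nmSoftG_mem M p A⟩ with hubar
  have hub0 : ubar ≠ 0 := nmSoft_red_G M p A h.prime h.liesOver
  obtain ⟨D, hD, -⟩ := hprin.exists_divisor ubar hub0
  -- the zero set of `ū` is finite
  have hZfin : {Q : Place (kRes A) (NmF (M * p) A) | 1 ≤ Q.ord ubar}.Finite := by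
    refine D.support.finite_toSet.subset ?_
    intro Q hQ
    rw [Finset.mem_coe, Finsupp.mem_support_iff, hD Q]
    have : 1 ≤ Q.ord ubar := hQ
    omega
  -- every branch of a node is a zero of `ū`
  have hzero : ∀ ν : NmNode M p h.cop A, 1 ≤ (nmNOo M p h.cop A ν).ord ubar := by
    intro ν
    obtain ⟨P, hP⟩ := ν.2.1
    have hQoo : NmSpecOo M p A (nmCentre A P) (nmNOo M p h.cop A ν) := by
      rw [hP]
      exact nmNOo_spec M p h.cop A ν
    have hQ0 : NmSpecZero M p h.cop A (nmCentre A P) (nmN0 M p h.cop A ν) := by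
      rw [hP]
      exact nmN0_spec M p h.cop A ν
    have hIoo : NmIdealOo M p A P := H.idealOo_of_specOo hQoo
    have hI0 : NmIdealZero M p h.cop A P := H.idealZero_of_specZero hQ0
    have hY : nmY A P = nmJ (M * p) := Fermat.Agent.H7.ORD.nmNonCusp M p A h P hIoo hI0
    have hGc : nmSoftG M p ∈ nmChart (M * p) A (nmY A P) := by
      rw [hY]
      exact nf_softG_mem_chart M p A
    have hGV0 : nmSoftG M p ∈ nmV0 M p h.cop A := by
      rw [← nmW_nmSoftF M p h.cop]
      exact nmSoft_W_mem_V0 M p h.cop A (nmSoftF_mem M p A)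
    have hWG : nmW M p h.cop (nmSoftG M p) = nmSoftF M p := by
      rw [← nmW_nmSoftF M p h.cop, nmSoft_W_W]
    have hGred0 : nmRed0 M p h.cop A ⟨nmSoftG M p, hGV0⟩ = 0 := by
      rw [nmSoft_red0_eq M p h.cop A hGV0 (nmSoftF_mem M p A) hWG]
      exact nmSoft_red_F M p A h.prime h.liesOver
    have hGmax : nmSoftG M p ∈ nmMax A P := hI0 _ hGc hGV0 hGred0
    have hmem := hQoo _ ⟨hGc, hGmax⟩ (nmSoftG_mem M p A)
    rcases (nb_mem_nonunits_iff _ _).mp hmem with h0 | h1
    · exact absurd h0 hub0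
    · exact h1
  -- the branch determines the node
  have hinj : Function.Injective (nmNOo M p h.cop A) := by
    intro ν ν' hνν'
    obtain ⟨P, hP⟩ := ν.2.1
    obtain ⟨P', hP'⟩ := ν'.2.1
    have h1 : NmSpecOo M p A (nmCentre A P) (nmNOo M p h.cop A ν) := by
      rw [hP]
      exact nmNOo_spec M p h.cop A ν
    have h2 : NmSpecOo M p A (nmCentre A P') (nmNOo M p h.cop A ν) := by
      rw [hP', hνν']
      exact nmNOo_spec M p h.cop A ν'
    have h3 := H.centre_eq_of_specOo h1 h2
    apply Subtype.ext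
    rw [← hP, ← hP', h3]
  haveI : Finite {Q : Place (kRes A) (NmF (M * p) A) // 1 ≤ Q.ord ubar} := hZfin.to_subtype
  exact Finite.of_injective
    (fun ν => (⟨nmNOo M p h.cop A ν, hzero ν⟩ :
      {Q : Place (kRes A) (NmF (M * p) A) // 1 ≤ Q.ord ubar}))
    (fun ν ν' hh => hinj (congrArg Subtype.val hh))

end

end Fermat.Agent.H83.ORD

end
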