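import Fermat.Agent.H83.ORD.GenusFF
import Fermat.Agent.H83.ORD.GenusNum
import Fermat.Agent.H92.ORD.NodalAsm
import Fermat.Agent.H18.ExTame

/-!
# P-ORD row 1167 (B1-NODES) (helper83): the special fibre of `X₀(M p)` has nodes

* `nm_genus_lt` : `2 g(C) < g(X₀(M p)) + 1`, `C` the component field `NmF (M p) A` of the nodal
  model (Riemann genera): `g(C) ≤ g(X₀(M))` (landed, `Fermat.Agent.H18.genusFF_modL_le`), and
  the genus formula at both levels (`genusFF_eq_genusFormula`, `gn_genusFormula_lt`);
* `nmNodes_of_le` : the inequality [NC] `g + 1 ≤ 2 g(C) + #nodes` (`#` = `Nat.card`) gives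
  `NmNodesStatement M p` (finitely many nodes, at least one);
* `nmNodes_of_genusEq` : `NmGenusEqStatement M p → NmNodesStatement M p`.

REMARK.  `Nonempty (NmNode)` does NOT follow from the abstract nodal interface: without nodes
everything is consistent with `g + 1 = 2 g(C)` (a disconnected special fibre); the numerical
input is necessary.
-/

set_option autoImplicit false
set_option linter.unusedSectionVars false
set_option linter.style.haveILetI false
set_option synthInstance.maxHeartbeats 400000

noncomputable section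

open AlgebraicCurve ModularCurve

namespace Fermat.Agent.H83.ORD

open Fermat.Agent.H72.FF Fermat.Agent.H84.ORD Fermat.Agent.H92.ORD

/-- the Riemann genus is transported along an equality of intermediate fields -/
theorem nm_genusFF_of_eq {K L : Type} [Field K] [Field L] [Algebra K L]
    (E E' : IntermediateField K L) (h : E = E') :
    @genusFF K ↥E _ _ E.toSubalgebra.algebra = genusFF K ↥E' := by
  subst h
  rfl

/-- the genus of the components is at most the genus of `X₀(M)` -/
theorem nm_genusFF_le (M p : ℕ) [NeZero M] [NeZero p] (hp : p.Prime) (hpM : ¬ p ∣ M)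
    (A : ValuationSubring Qb) (hA : A.LiesOverPrime p) :
    genusFF (kRes A) (NmF (M * p) A) ≤
      genusFF (AlgebraicClosure ℚ) ↥(modularFunctionFieldBar M) := by
  haveI : Fact p.Prime := ⟨hp⟩
  have h1 : genusFF (kRes A) (NmF (M * p) A) =
      genusFF (kRes A) ↥(modularFunctionFieldFullC (kRes A) M) :=
    nm_genusFF_of_eq _ _ (b1_nmResField_eq M p hp hpM A hA)
  rw [h1]
  exact Fermat.Agent.H18.genusFF_modL_le M p hpM A hA

/-- **The numerical inequality** `2 g(C) < g(X₀(M p)) + 1`. -/
theorem nm_genus_lt (M p : ℕ) [NeZero M] [NeZero p] (A : ValuationSubring Qb)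
    (h : NmSetup M p A) :
    2 * genusFF (kRes A) (NmF (M * p) A) < genusFF Qb (FLb (M * p)) + 1 := by
  have hpM : ¬ p ∣ M := fun hd =>
    h.prime.one_lt.ne' (Nat.Coprime.eq_one_of_dvd h.cop.symm hd)
  have h1 := nm_genusFF_le M p h.prime hpM A h.liesOver
  have h2 := genusFF_eq_genusFormula M
  have h3 := genusFF_eq_genusFormula (M * p)
  have h4 := gn_genusFormula_lt (NeZero.ne M) h.prime hpM h.four
  rw [← h2, ← h3] at h4
  have h5 : 2 * genusFF (AlgebraicClosure ℚ) ↥(modularFunctionFieldBar M) <
      genusFF (AlgebraicClosure ℚ) ↥(modularFunctionFieldBar (M * p)) + 1 := by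
    exact_mod_cast h4
  calc 2 * genusFF (kRes A) (NmF (M * p) A)
      ≤ 2 * genusFF (AlgebraicClosure ℚ) ↥(modularFunctionFieldBar M) :=
        Nat.mul_le_mul_left 2 h1
    _ < genusFF Qb (FLb (M * p)) + 1 := h5

/-- the nodes from the inequality [NC], at one valuation ring -/
theorem nm_nodes_of_le (M p : ℕ) [NeZero M] [NeZero p] (A : ValuationSubring Qb)
    (h : NmSetup M p A)
    (hle : genusFF Qb (FLb (M * p)) + 1 ≤
      genusFF (kRes A) (NmF (M * p) A) + genusFF (kRes A) (NmF (M * p) A) +
        Nat.card (NmNode M p h.cop A)) :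
    Finite (NmNode M p h.cop A) ∧ Nonempty (NmNode M p h.cop A) := by
  have h1 := nm_genus_lt M p A h
  have h2 : 0 < Nat.card (NmNode M p h.cop A) := by omega
  exact (Nat.card_pos_iff.mp h2).symm

/-- **[NODES] from the inequality [NC]** `g + 1 ≤ 2 g(C) + #nodes`. -/
theorem nmNodes_of_le (M p : ℕ) [NeZero M] [NeZero p]
    (hle : ∀ (A : ValuationSubring Qb) (h : NmSetup M p A),
      genusFF Qb (FLb (M * p)) + 1 ≤
        genusFF (kRes A) (NmF (M * p) A) + genusFF (kRes A) (NmF (M * p) A) +
          Nat.card (NmNode M p h.cop A)) :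
    NmNodesStatement M p :=
  fun A h => nm_nodes_of_le M p A h (hle A h)

/-- **[NODES] from [GENUS].** -/
theorem nmNodes_of_genusEq (M p : ℕ) [NeZero M] [NeZero p] (hE : NmGenusEqStatement M p) :
    NmNodesStatement M p :=
  nmNodes_of_le M p fun A h => le_of_eq (hE A h)

end Fermat.Agent.H83.ORD

end
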